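/-
Project FF (S19), cell [INST], leaf [P-DK] (helper28): the ABSTRACT part.  Prefix `ffi_dk_`.

`O` a domain with fraction field `K`, `Kb / K` a field extension, `F / K` a field, `FK / Kb` a field,
`φ : F → FK` an `O`-algebra map, LINEARLY DISJOINT in the sense `ffi_dk_LD`:
`K`-linearly independent constants `e_j ∈ Kb` stay linearly independent over `φ F`.

* `ffi_dk_exists_indep`, `ffi_dk_exists_rep` : normal form of the elements of `Kb ⊗[O] M`;
* `ffi_dk_iota φ 𝒜 : Kb ⊗[O] 𝒜 →ₐ[Kb] FK` for a subalgebra `𝒜 ⊆ F`; it is injective;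
* gluing `𝒜 ∩ x^m 𝒜'` and injectivity of `Kb ⊗ Λ m → Kb ⊗ 𝒜`;
* the range of `ffi_dk_iota φ (fc_chart O {x})` is the chart of `φ x` (given geometric normality);
* transport of the Dedekind property.
-/
import Mathlib
import Fermat.Agent.FF.Inst.Defs

set_option autoImplicit false
set_option linter.unusedSectionVars false
set_option linter.style.haveILetI false

noncomputable section

namespace Fermat.Agent.FF

open AlgebraicCurve Fermat.Agent.JT3
open scoped TensorProduct

/-! ### normal forms in `V ⊗[R] M` -/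

section NF

variable {R : Type*} [CommRing R] [IsDomain R] {K : Type*} [Field K] [Algebra R K]
  [IsFractionRing R K] {V : Type*} [AddCommGroup V] [Module K V] [Module R V]
  [IsScalarTower R K V]

/-- a finite subset of a `K`-vector space lies in the `R`-span of a `K`-linearly independent
family. -/
theorem ffi_dk_exists_indep (S : Finset V) :
    ∃ (r : ℕ) (e : Fin r → V), LinearIndependent K e ∧
      ∀ c ∈ S, c ∈ Submodule.span R (Set.range e) := by
  classical
  set W : Submodule K V := Submodule.span K (S : Set V) with hW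
  have : FiniteDimensional K W := FiniteDimensional.span_finset K S
  set r := Module.finrank K W with hr
  let b : Module.Basis (Fin r) K W := Module.finBasis K W
  -- the coefficients
  let coef : V → Fin r → K := fun c =>
    if h : c ∈ W then fun j => b.repr ⟨c, h⟩ j else 0
  let T : Finset K := S.biUnion fun c => Finset.univ.image (coef c)
  obtain ⟨d, hd⟩ := IsLocalization.exist_integer_multiples_of_finset (nonZeroDivisors R) T
  have hd0 : algebraMap R K (d : R) ≠ 0 := by
    have := nonZeroDivisors.ne_zero d.2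
    simp [this]
  refine ⟨r, fun j => (algebraMap R K (d : R))⁻¹ • ((b j : W) : V), ?_, ?_⟩
  · have h1 : LinearIndependent K fun j => ((b j : W) : V) :=
      b.linearIndependent.map' W.subtype (Submodule.ker_subtype W)
    exact h1.units_smul fun _ => (Units.mk0 _ hd0)⁻¹
  · intro c hc
    have hcW : c ∈ W := Submodule.subset_span hc
    have hrepr : c = ∑ j, coef c j • ((b j : W) : V) := by
      have := b.sum_repr ⟨c, hcW⟩
      have h2 := congrArg (W.subtype) this
      simp only [map_sum, map_smul, Submodule.subtype_apply] at h2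
      have hcoef : coef c = fun j => b.repr ⟨c, hcW⟩ j := by simp only [coef, dif_pos hcW]
      rw [hcoef]
      exact h2.symm
    have hint : ∀ j, ∃ ρ : R, algebraMap R K ρ = algebraMap R K (d : R) * coef c j := by
      intro j
      have hmem : coef c j ∈ T :=
        Finset.mem_biUnion.2 ⟨c, hc, Finset.mem_image.2 ⟨j, Finset.mem_univ _, rfl⟩⟩
      obtain ⟨ρ, hρ⟩ := hd (coef c j) hmem
      refine ⟨ρ, ?_⟩
      rw [hρ, Algebra.smul_def]
    choose ρ hρ using hint
    rw [hrepr]
    refine Submodule.sum_mem _ fun j _ => ?_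
    have : coef c j • ((b j : W) : V) =
        ρ j • ((algebraMap R K (d : R))⁻¹ • ((b j : W) : V)) := by
      rw [← algebraMap_smul K (ρ j), hρ, smul_smul, mul_comm, ← mul_assoc,
        inv_mul_cancel₀ hd0, one_mul]
    rw [this]
    exact Submodule.smul_mem _ _ (Submodule.subset_span ⟨j, rfl⟩)

variable {M : Type*} [AddCommGroup M] [Module R M]

/-- every element of `V ⊗[R] M` involves only finitely many elements of `V`. -/
theorem ffi_dk_exists_rep (z : V ⊗[R] M) :
    ∃ S : Finset V, ∀ (r : ℕ) (e : Fin r → V),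
      (∀ c ∈ S, c ∈ Submodule.span R (Set.range e)) →
      ∃ a : Fin r → M, z = ∑ j, e j ⊗ₜ[R] a j := by
  classical
  induction z using TensorProduct.induction_on with
  | zero =>
    exact ⟨∅, fun r e _ => ⟨fun _ => 0, by simp⟩⟩
  | tmul c a =>
    refine ⟨{c}, fun r e h => ?_⟩
    have hc := h c (Finset.mem_singleton_self c)
    obtain ⟨ρ, hρ⟩ := (Submodule.mem_span_range_iff_exists_fun R).1 hc
    refine ⟨fun j => ρ j • a, ?_⟩
    rw [← hρ, TensorProduct.sum_tmul]
    refine Finset.sum_congr rfl fun j _ => ?_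
    rw [TensorProduct.smul_tmul]
  | add z₁ z₂ h₁ h₂ =>
    obtain ⟨S₁, h₁⟩ := h₁
    obtain ⟨S₂, h₂⟩ := h₂
    refine ⟨S₁ ∪ S₂, fun r e h => ?_⟩
    obtain ⟨a₁, ha₁⟩ := h₁ r e fun c hc => h c (Finset.mem_union_left _ hc)
    obtain ⟨a₂, ha₂⟩ := h₂ r e fun c hc => h c (Finset.mem_union_right _ hc)
    refine ⟨fun j => a₁ j + a₂ j, ?_⟩
    rw [ha₁, ha₂, ← Finset.sum_add_distrib]
    refine Finset.sum_congr rfl fun j _ => ?_
    rw [TensorProduct.tmul_add]

end NF

/-! ### small tools -/

/-- valuation subrings are integrally closed (over any ring mapping into them). -/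
theorem ffi_dk_mem_of_isIntegral {F : Type*} [Field F] (V : ValuationSubring F) {R : Type*}
    [CommRing R] [Algebra R F] (hR : ∀ r : R, algebraMap R F r ∈ V) {x : F}
    (hx : IsIntegral R x) : x ∈ V := by
  obtain ⟨p, hp, hpx⟩ := hx
  let ψ : R →+* V := (algebraMap R F).codRestrict V.toSubring hR
  have h1 : IsIntegral V x := by
    refine ⟨p.map ψ, hp.map ψ, ?_⟩
    rw [Polynomial.eval₂_map]
    exact hpx
  obtain ⟨y, rfl⟩ := (IsIntegrallyClosed.isIntegral_iff (R := V) (K := F)).1 h1
  exact y.2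

/-- Dedekind domains are invariant under ring isomorphisms. -/
theorem ffi_dk_isDedekindDomain_of_ringEquiv {R S : Type*} [CommRing R] [CommRing S]
    [IsDedekindDomain S] (e : R ≃+* S) : IsDedekindDomain R := by
  have : IsDomain R := e.toMulEquiv.isDomain
  have : IsNoetherianRing R := isNoetherianRing_of_ringEquiv S e.symm
  have : Ring.DimensionLEOne R := Ring.DimensionLEOne.of_ringEquiv e
  have : IsIntegrallyClosed R := IsIntegrallyClosed.of_equiv e.symm
  exact { }

/-! ### the abstract comparison -/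

section Abs

variable {O : Type} [CommRing O] [IsDomain O] (K : Type) [Field K] [Algebra O K]
  [IsFractionRing O K]
  (Kb : Type) [Field Kb] [Algebra K Kb] [Algebra O Kb] [IsScalarTower O K Kb]
  {F : Type} [Field F] [Algebra K F] [Algebra O F] [IsScalarTower O K F]
  {FK : Type} [Field FK] [Algebra Kb FK] [Algebra O FK] [IsScalarTower O Kb FK]
  (φ : F →ₐ[O] FK)

/-- the comparison map `Kb ⊗[O] 𝒜 → FK`, `c ⊗ a ↦ c · φ a`. -/
def ffi_dk_iota {Kb : Type} [Field Kb] [Algebra O Kb] [Algebra Kb FK] [IsScalarTower O Kb FK]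
    (𝒜 : Subalgebra O F) : Kb ⊗[O] ↥𝒜 →ₐ[Kb] FK :=
  Algebra.TensorProduct.lift (Algebra.ofId Kb FK) (φ.comp 𝒜.val) (fun _ _ => Commute.all _ _)

theorem ffi_dk_iota_tmul {Kb : Type} [Field Kb] [Algebra O Kb] [Algebra Kb FK]
    [IsScalarTower O Kb FK] (𝒜 : Subalgebra O F) (c : Kb) (a : ↥𝒜) :
    ffi_dk_iota φ 𝒜 (c ⊗ₜ[O] a) = algebraMap Kb FK c * φ (a : F) := by
  rw [ffi_dk_iota, Algebra.TensorProduct.lift_tmul]
  rfl

/-- **linear disjointness**: `K`-linearly independent constants of `Kb` stay linearly independent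
over `φ F`. -/
def ffi_dk_LD : Prop :=
  ∀ (r : ℕ) (e : Fin r → Kb) (f : Fin r → F), LinearIndependent K e →
    ∑ j, algebraMap Kb FK (e j) * φ (f j) = 0 → ∀ j, f j = 0

variable {K Kb φ}

/-- the basic injectivity statement. -/
theorem ffi_dk_inj_aux (hLD : ffi_dk_LD K Kb φ) {M : Type*} [AddCommGroup M] [Module O M]
    (g : M →ₗ[O] F) (hg : Function.Injective g) (T : Kb ⊗[O] M →+ FK)
    (hT : ∀ (c : Kb) (m : M), T (c ⊗ₜ[O] m) = algebraMap Kb FK c * φ (g m))
    (z : Kb ⊗[O] M) (hz : T z = 0) : z = 0 := by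
  obtain ⟨S, hS⟩ := ffi_dk_exists_rep (R := O) z
  obtain ⟨r, e, he, heS⟩ := ffi_dk_exists_indep (R := O) (K := K) S
  obtain ⟨a, ha⟩ := hS r e heS
  have h0 : ∑ j, algebraMap Kb FK (e j) * φ (g (a j)) = 0 := by
    rw [← hz, ha, map_sum]
    exact Finset.sum_congr rfl fun j _ => (hT _ _).symm
  have h1 := hLD r e (fun j => g (a j)) he h0
  rw [ha]
  refine Finset.sum_eq_zero fun j _ => ?_
  have : a j = 0 := hg (by rw [h1 j, map_zero])
  rw [this, TensorProduct.tmul_zero]

/-- the comparison map is injective. -/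
theorem ffi_dk_iota_injective (hLD : ffi_dk_LD K Kb φ) (𝒜 : Subalgebra O F) :
    Function.Injective (ffi_dk_iota (Kb := Kb) φ 𝒜) := by
  rw [injective_iff_map_eq_zero]
  intro z hz
  exact ffi_dk_inj_aux hLD (𝒜.val.toLinearMap) Subtype.val_injective
    (ffi_dk_iota (Kb := Kb) φ 𝒜 : Kb ⊗[O] ↥𝒜 →+ FK) (fun c a => ffi_dk_iota_tmul φ 𝒜 c a) z hz

/-- `Kb ⊗ Λ m → Kb ⊗ 𝒜` is injective. -/
theorem ffi_dk_incl_injective (hLD : ffi_dk_LD K Kb φ) (x : F) (m : ℕ) :
    Function.Injective
      (ff_incl O ↥(fc_chart O ({x} : Set F)) Kb (ffi_gLam O x) m) := by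
  rw [injective_iff_map_eq_zero]
  intro u hu
  refine ffi_dk_inj_aux hLD
    ((fc_chart O ({x} : Set F)).val.toLinearMap.comp (ffi_gLam O x m).subtype)
    (fun a b h => Subtype.ext (Subtype.ext h))
    (((ffi_dk_iota (Kb := Kb) φ (fc_chart O ({x} : Set F)) :
        Kb ⊗[O] ↥(fc_chart O ({x} : Set F)) →+ FK)).comp
      ((ff_incl O ↥(fc_chart O ({x} : Set F)) Kb (ffi_gLam O x) m :
        Kb ⊗[O] ↥(ffi_gLam O x m) →ₗ[Kb] Kb ⊗[O] ↥(fc_chart O ({x} : Set F))) :
        Kb ⊗[O] ↥(ffi_gLam O x m) →+ Kb ⊗[O] ↥(fc_chart O ({x} : Set F))))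
    (fun c a => ?_) u ?_
  · simp only [AddMonoidHom.coe_comp, AddMonoidHom.coe_coe, Function.comp_apply, ff_incl,
      LinearMap.baseChange_tmul, Submodule.subtype_apply]
    rw [ffi_dk_iota_tmul]
    rfl
  · simp only [AddMonoidHom.coe_comp, AddMonoidHom.coe_coe, Function.comp_apply]
    rw [hu, map_zero]

/-- **gluing**: `Kb ⊗ (𝒜 ∩ x^m 𝒜') = (Kb ⊗ 𝒜) ∩ x^m (Kb ⊗ 𝒜')` inside `FK`. -/
theorem ffi_dk_glue (hLD : ffi_dk_LD K Kb φ) (x : F) (hx : x ≠ 0) (m : ℕ)
    (b : Kb ⊗[O] ↥(fc_chart O ({x} : Set F))) (b' : Kb ⊗[O] ↥(fc_chart O ({x⁻¹} : Set F)))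
    (h : ffi_dk_iota φ (fc_chart O ({x} : Set F)) b =
      φ x ^ m * ffi_dk_iota φ (fc_chart O ({x⁻¹} : Set F)) b') :
    ∃ u : Kb ⊗[O] ↥(ffi_gLam O x m),
      ff_incl O ↥(fc_chart O ({x} : Set F)) Kb (ffi_gLam O x) m u = b := by
  classical
  obtain ⟨S, hS⟩ := ffi_dk_exists_rep (R := O) b
  obtain ⟨S', hS'⟩ := ffi_dk_exists_rep (R := O) b'
  obtain ⟨r, e, he, heS⟩ := ffi_dk_exists_indep (R := O) (K := K) (S ∪ S')
  obtain ⟨a, ha⟩ := hS r e fun c hc => heS c (Finset.mem_union_left _ hc)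
  obtain ⟨a', ha'⟩ := hS' r e fun c hc => heS c (Finset.mem_union_right _ hc)
  have h0 : ∑ j, algebraMap Kb FK (e j) * φ ((a j : F) - x ^ m * (a' j : F)) = 0 := by
    have h1 : ∑ j, algebraMap Kb FK (e j) * φ (a j : F) =
        φ x ^ m * ∑ j, algebraMap Kb FK (e j) * φ (a' j : F) := by
      rw [ha, ha', map_sum, map_sum] at h
      simpa only [ffi_dk_iota_tmul] using h
    simp only [map_sub, map_mul, map_pow, mul_sub, Finset.sum_sub_distrib]
    rw [h1, Finset.mul_sum, sub_eq_zero]
    exact Finset.sum_congr rfl fun j _ => by ring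
  have h1 := hLD r e _ he h0
  have hmem : ∀ j, a j ∈ ffi_gLam O x m := by
    intro j
    rw [ffi_mem_gLam]
    have h2 : (a j : F) = x ^ m * (a' j : F) := sub_eq_zero.1 (h1 j)
    have h3 : (a j : F) * x⁻¹ ^ m = (a' j : F) := by
      rw [h2, inv_pow, mul_comm, ← mul_assoc, inv_mul_cancel₀ (pow_ne_zero m hx), one_mul]
    rw [h3]
    exact (a' j).2
  refine ⟨∑ j, e j ⊗ₜ[O] (⟨a j, hmem j⟩ : ↥(ffi_gLam O x m)), ?_⟩
  rw [map_sum, ha]
  refine Finset.sum_congr rfl fun j _ => ?_
  rw [ff_incl, LinearMap.baseChange_tmul]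
  rfl

/-- the range of the comparison map of the chart of `x` consists of functions regular wherever
`φ x` is. -/
theorem ffi_dk_iota_mem_place (x : F) (v : Place Kb FK) (hv : φ x ∈ v.toValuationSubring)
    (z : Kb ⊗[O] ↥(fc_chart O ({x} : Set F))) :
    ffi_dk_iota φ (fc_chart O ({x} : Set F)) z ∈ v.toValuationSubring := by
  induction z using TensorProduct.induction_on with
  | zero => rw [map_zero]; exact zero_mem _
  | tmul c a =>
    rw [ffi_dk_iota_tmul]
    refine mul_mem (v.algebraMap_mem' c) ?_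
    have hcomap : (a : F) ∈ v.toValuationSubring.comap (φ : F →+* FK) := by
      refine ffi_dk_mem_of_isIntegral _ (R := ↥(Algebra.adjoin O ({x} : Set F))) ?_
        (fc_mem_chart.1 a.2)
      rintro ⟨o, ho⟩
      show φ o ∈ v.toValuationSubring
      induction ho using Algebra.adjoin_induction with
      | mem y hy =>
        rw [Set.mem_singleton_iff] at hy
        subst hy
        exact hv
      | algebraMap o' =>
        show φ (algebraMap O F o') ∈ v.toValuationSubring
        rw [φ.commutes, IsScalarTower.algebraMap_apply O Kb FK]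
        exact v.algebraMap_mem' _
      | add y z _ _ hy hz => rw [map_add]; exact add_mem hy hz
      | mul y z _ _ hy hz => rw [map_mul]; exact mul_mem hy hz
    exact hcomap
  | add z₁ z₂ h₁ h₂ => rw [map_add]; exact add_mem h₁ h₂

end Abs

/-! ### clearing denominators over a discrete valuation ring -/

section Clear

variable {O : Type} [CommRing O] [IsDomain O] [IsDiscreteValuationRing O]
  (K : Type) [Field K] [Algebra O K] [IsFractionRing O K]
  {F : Type} [Field F] [Algebra K F] [Algebra O F] [IsScalarTower O K F]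

/-- every element of `K` becomes integral after multiplication by a power of the uniformiser. -/
theorem ffi_dk_exists_pow_mul_eq {ϖ : O} (hϖ : Irreducible ϖ) (c : K) :
    ∃ k : ℕ, ∃ o : O, algebraMap O K ϖ ^ k * c = algebraMap O K o := by
  obtain ⟨a, s, hs, rfl⟩ := IsFractionRing.div_surjective (A := O) c
  have hs0 : s ≠ 0 := nonZeroDivisors.ne_zero hs
  obtain ⟨n, u, hu⟩ := IsDiscreteValuationRing.eq_unit_mul_pow_irreducible hs0 hϖ
  refine ⟨n, a * ((u⁻¹ : Oˣ) : O), ?_⟩
  have hϖ0 : algebraMap O K ϖ ≠ 0 := by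
    simpa using (IsFractionRing.injective O K).ne hϖ.ne_zero
  have hu0 : algebraMap O K (u : O) ≠ 0 := by
    simp
  have huinv : algebraMap O K ((u⁻¹ : Oˣ) : O) = (algebraMap O K (u : O))⁻¹ := by
    apply eq_inv_of_mul_eq_one_left
    rw [← map_mul, Units.inv_mul, map_one]
  rw [hu, map_mul, map_mul, map_pow, huinv]
  field_simp

variable {K}

theorem ffi_dk_clear {ϖ : O} (hϖ : Irreducible ϖ) (x : F) {b : F}
    (hb : IsIntegral ↥(Algebra.adjoin K ({x} : Set F)) b) :
    ∃ k : ℕ, algebraMap O F ϖ ^ k * b ∈ fc_chart O ({x} : Set F) := by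
  have hclear : ∀ c ∈ (Algebra.adjoin K ({x} : Set F)).restrictScalars O, ∃ k : ℕ, ∀ n, k ≤ n →
      algebraMap O F ϖ ^ n * c ∈ Algebra.adjoin O ({x} : Set F) := by
    intro c hc
    rw [Subalgebra.mem_restrictScalars] at hc
    induction hc using Algebra.adjoin_induction with
    | mem y hy =>
      refine ⟨0, fun n _ => ?_⟩
      rw [← map_pow]
      exact mul_mem (Subalgebra.algebraMap_mem _ _) (Algebra.subset_adjoin hy)
    | algebraMap c₀ =>
      obtain ⟨k, o, ho⟩ := ffi_dk_exists_pow_mul_eq K hϖ c₀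
      refine ⟨k, fun n hn => ?_⟩
      obtain ⟨d, rfl⟩ := Nat.exists_eq_add_of_le hn
      have : algebraMap O F ϖ ^ (k + d) * algebraMap K F c₀ = algebraMap O F (ϖ ^ d * o) := by
        rw [map_mul, IsScalarTower.algebraMap_apply O K F o, ← ho, map_mul, map_pow, map_pow,
          ← IsScalarTower.algebraMap_apply O K F]
        ring
      rw [this]
      exact Subalgebra.algebraMap_mem _ _
    | add y z _ _ hy hz =>
      obtain ⟨k₁, h₁⟩ := hy
      obtain ⟨k₂, h₂⟩ := hz
      refine ⟨max k₁ k₂, fun n hn => ?_⟩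
      rw [mul_add]
      exact add_mem (h₁ n (le_trans (le_max_left _ _) hn)) (h₂ n (le_trans (le_max_right _ _) hn))
    | mul y z _ _ hy hz =>
      obtain ⟨k₁, h₁⟩ := hy
      obtain ⟨k₂, h₂⟩ := hz
      refine ⟨k₁ + k₂, fun n hn => ?_⟩
      obtain ⟨d, rfl⟩ := Nat.exists_eq_add_of_le hn
      have : algebraMap O F ϖ ^ (k₁ + k₂ + d) * (y * z) =
          (algebraMap O F ϖ ^ k₁ * y) * (algebraMap O F ϖ ^ (k₂ + d) * z) := by ring
      rw [this]
      exact mul_mem (h₁ k₁ le_rfl) (h₂ (k₂ + d) (Nat.le_add_right _ _))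
  obtain ⟨k, hk⟩ := fc_clear_aux (A0 := O) (Algebra.adjoin O ({x} : Set F))
    ((Algebra.adjoin K ({x} : Set F)).restrictScalars O) (algebraMap O F ϖ)
    (by
      rw [Subalgebra.mem_restrictScalars, IsScalarTower.algebraMap_apply O K F]
      exact Subalgebra.algebraMap_mem _ _) hclear (z := b) hb
  exact ⟨k, fc_mem_chart.2 hk⟩

end Clear

/-! ### the range of the comparison map and the Dedekind property -/

section Range

variable {O : Type} [CommRing O] [IsDomain O] [IsDiscreteValuationRing O]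
  {K : Type} [Field K] [Algebra O K] [IsFractionRing O K]
  {Kb : Type} [Field Kb] [Algebra K Kb] [Algebra O Kb] [IsScalarTower O K Kb]
  {F : Type} [Field F] [Algebra K F] [Algebra O F] [IsScalarTower O K F]
  {FK : Type} [Field FK] [Algebra Kb FK] [Algebra O FK] [IsScalarTower O Kb FK]
  {φ : F →ₐ[O] FK}

theorem ffi_dk_mem_range {ϖ : O} (hϖ : Irreducible ϖ) (x : F) {f : FK}
    (hf : f ∈ Submodule.span Kb
      ((φ : F → FK) '' {b : F | IsIntegral ↥(Algebra.adjoin K ({x} : Set F)) b})) :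
    f ∈ (ffi_dk_iota (Kb := Kb) φ (fc_chart O ({x} : Set F))).range := by
  induction hf using Submodule.span_induction with
  | mem y hy =>
    obtain ⟨b, hb, rfl⟩ := hy
    obtain ⟨k, hk⟩ := ffi_dk_clear (K := K) hϖ x hb
    have hinj : Function.Injective (algebraMap O Kb) := by
      rw [IsScalarTower.algebraMap_eq O K Kb]
      exact (algebraMap K Kb).injective.comp (IsFractionRing.injective O K)
    have h0 : algebraMap Kb FK (algebraMap O Kb ϖ) ≠ 0 := by
      have : algebraMap O Kb ϖ ≠ 0 := by simpa using hinj.ne hϖ.ne_zero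
      simpa using this
    refine ⟨((algebraMap O Kb ϖ) ^ k)⁻¹ ⊗ₜ[O] ⟨_, hk⟩, ?_⟩
    show ffi_dk_iota (Kb := Kb) φ (fc_chart O ({x} : Set F)) _ = _
    rw [ffi_dk_iota_tmul]
    simp only [map_mul, map_pow, map_inv₀, φ.commutes, IsScalarTower.algebraMap_apply O Kb FK]
    rw [← mul_assoc, inv_mul_cancel₀ (pow_ne_zero k h0), one_mul]
  | zero => exact zero_mem _
  | add y z _ _ hy hz => exact add_mem hy hz
  | smul c y _ hy => exact Subalgebra.smul_mem _ hy c

/-- **the range of the comparison map is the chart of `φ x`** (given geometric normality). -/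
theorem ffi_dk_range_iff {ϖ : O} (hϖ : Irreducible ϖ) (x : F) (hsep : rt_IsSepGen Kb (φ x))
    (hGN : ∀ f : FK, IsIntegral ↥(Algebra.adjoin Kb ({φ x} : Set FK)) f →
      f ∈ Submodule.span Kb
        ((φ : F → FK) '' {b : F | IsIntegral ↥(Algebra.adjoin K ({x} : Set F)) b}))
    (f : FK) :
    f ∈ (ffi_dk_iota (Kb := Kb) φ (fc_chart O ({x} : Set F))).range ↔
      ∀ v : Place Kb FK, φ x ∈ v.toValuationSubring → f ∈ v.toValuationSubring := by
  constructor
  · rintro ⟨z, rfl⟩ v hv
    exact ffi_dk_iota_mem_place x v hv z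
  · intro h
    exact ffi_dk_mem_range hϖ x (hGN f (rt_isIntegral_of_forall_mem hsep f h))

/-- the fibre `Kb ⊗ 𝒜` is a Dedekind domain. -/
theorem ffi_dk_isDedekindDomain {ϖ : O} (hϖ : Irreducible ϖ) (hLD : ffi_dk_LD K Kb φ) (x : F)
    (hsep : rt_IsSepGen Kb (φ x))
    (hGN : ∀ f : FK, IsIntegral ↥(Algebra.adjoin Kb ({φ x} : Set FK)) f →
      f ∈ Submodule.span Kb
        ((φ : F → FK) '' {b : F | IsIntegral ↥(Algebra.adjoin K ({x} : Set F)) b})) :
    IsDedekindDomain (Kb ⊗[O] ↥(fc_chart O ({x} : Set F))) := by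
  have hD := rt_chart_isDedekindDomain hsep
  have hinj := ffi_dk_iota_injective (Kb := Kb) hLD (fc_chart O ({x} : Set F))
  have hrange : ∀ f : FK, f ∈ (ffi_dk_iota (Kb := Kb) φ (fc_chart O ({x} : Set F))).range ↔
      IsIntegral ↥(Algebra.adjoin Kb ({φ x} : Set FK)) f := by
    intro f
    constructor
    · intro hf
      exact rt_isIntegral_of_forall_mem hsep f ((ffi_dk_range_iff hϖ x hsep hGN f).1 hf)
    · intro hf
      exact ffi_dk_mem_range hϖ x (hGN f hf)
  let e₁ : Kb ⊗[O] ↥(fc_chart O ({x} : Set F)) ≃ₐ[Kb]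
      ↥(ffi_dk_iota (Kb := Kb) φ (fc_chart O ({x} : Set F))).range :=
    AlgEquiv.ofInjective _ hinj
  let e₂ : ↥(ffi_dk_iota (Kb := Kb) φ (fc_chart O ({x} : Set F))).range ≃+*
      ↥(integralClosure ↥(Algebra.adjoin Kb ({φ x} : Set FK)) FK) :=
    { toFun := fun z => ⟨z.1, (hrange _).1 z.2⟩
      invFun := fun z => ⟨z.1, (hrange _).2 z.2⟩
      left_inv := fun _ => rfl
      right_inv := fun _ => rfl
      map_mul' := fun _ _ => rfl
      map_add' := fun _ _ => rfl }
  exact ffi_dk_isDedekindDomain_of_ringEquiv (e₁.toRingEquiv.trans e₂)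

end Range

/-! ### a compositum of fields is spanned by one factor over the (algebraic) other -/

section SpanTop

variable {K : Type*} [Field K] {Kb : Type*} [Field Kb] [Algebra K Kb] [Algebra.IsAlgebraic K Kb]
  {F : Type*} [Field F] [Algebra K F] {FK : Type*} [Field FK] [Algebra Kb FK] (φ : F →+* FK)

theorem ffi_dk_span_mul {y z : FK} (hy : y ∈ Submodule.span Kb (Set.range φ))
    (hz : z ∈ Submodule.span Kb (Set.range φ)) : y * z ∈ Submodule.span Kb (Set.range φ) := by
  have h := Submodule.mul_mem_mul hy hz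
  rw [Submodule.span_mul_span] at h
  refine Submodule.span_mono ?_ h
  rintro _ ⟨_, ⟨a, rfl⟩, _, ⟨b, rfl⟩, rfl⟩
  exact ⟨a * b, map_mul _ _ _⟩

/-- if `FK` is generated as a field by the constants `Kb` (algebraic over `K`) and `φ F`, then it is
spanned over `Kb` by `φ F`. -/
theorem ffi_dk_span_eq_top
    (hφ : ∀ c : K, φ (algebraMap K F c) = algebraMap Kb FK (algebraMap K Kb c))
    (hgen : ∀ f : FK, f ∈ Subfield.closure (Set.range (algebraMap Kb FK) ∪ Set.range φ))
    (f : FK) : f ∈ Submodule.span Kb (Set.range φ) := by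
  letI : Algebra F FK := φ.toAlgebra
  letI : Algebra K FK := ((algebraMap Kb FK).comp (algebraMap K Kb)).toAlgebra
  haveI : IsScalarTower K Kb FK := IsScalarTower.of_algebraMap_eq fun _ => rfl
  haveI : IsScalarTower K F FK := IsScalarTower.of_algebraMap_eq fun c => (hφ c).symm
  have halg : ∀ y : FK, y ∈ Submodule.span Kb (Set.range φ) → IsAlgebraic F y := by
    intro y hy
    induction hy using Submodule.span_induction with
    | mem z hz =>
      obtain ⟨z', rfl⟩ := hz
      exact isAlgebraic_algebraMap (R := F) (A := FK) z'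
    | zero => exact isAlgebraic_zero
    | add y z _ _ hy hz => exact hy.add hz
    | smul c y _ hy =>
      rw [Algebra.smul_def]
      refine IsAlgebraic.mul ?_ hy
      have h1 : IsAlgebraic K c := Algebra.IsAlgebraic.isAlgebraic c
      have h2 : IsAlgebraic K (algebraMap Kb FK c) := h1.algebraMap
      exact h2.tower_top F
  let T' : Subalgebra F FK :=
    { carrier := Submodule.span Kb (Set.range φ)
      mul_mem' := ffi_dk_span_mul φ
      add_mem' := add_mem
      algebraMap_mem' := fun a => Submodule.subset_span ⟨a, rfl⟩ }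
  let S : Subfield FK :=
    { T'.toSubring with
      inv_mem' := fun y hy =>
        Subalgebra.inv_mem_of_algebraic (A := T') (x := ⟨y, hy⟩) (halg y hy) }
  have hle : Subfield.closure (Set.range (algebraMap Kb FK) ∪ Set.range φ) ≤ S := by
    rw [Subfield.closure_le]
    rintro y (⟨c, rfl⟩ | ⟨a, rfl⟩)
    · show algebraMap Kb FK c ∈ Submodule.span Kb (Set.range φ)
      rw [Algebra.algebraMap_eq_smul_one]
      exact Submodule.smul_mem _ _ (Submodule.subset_span ⟨1, map_one _⟩)
    · exact Submodule.subset_span ⟨a, rfl⟩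
  exact hle (hgen f)

end SpanTop

end Fermat.Agent.FF
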