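/-
Project FF (S19), cell [INST], leaf [P-DK] (helper28): the MODULAR part.  Prefix `ffi_dk_`.

The hypotheses of `FF/Inst/Pkg/DK/Abstract.lean` for `O = A ∩ L`, `K = L`, `Kb = Q̄`,
`F = F_L = L(j(q^d) : d ∣ N)`, `FK = F̄_N`, `φ = ffi_toBar L N` (coefficientwise):

* `ffi_dk_phi`       : `ffi_toBar L N` as an `O₁`-algebra map;
* `ffi_dk_ld`        : linear disjointness (coefficientwise);
* `ffi_dk_span_top`  : `F̄_N` is spanned over `Q̄` by the image of `F_L`;
* `ffi_dk_galois`    : the coefficientwise Galois action of `Gal(Q̄ / L)` on `F̄_N`;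
* `ffi_dk_gn`        : the conclusion of [P-GN] in the modular case.
-/
import Mathlib
import Fermat.Agent.FF.Inst.Pkg.Seams
import Fermat.Agent.FF.Inst.Pkg.DK.Abstract
import Fermat.Agent.JT3.Riemann.FBar

set_option autoImplicit false
set_option linter.unusedSectionVars false
set_option linter.style.haveILetI false

noncomputable section

namespace Fermat.Agent.FF

open ModularCurve AlgebraicCurve Fermat.Agent.JT3 Fermat.Agent.S24
open scoped TensorProduct

section Modular

variable (A : ValuationSubring ff_Qb) (L : Type) [Field L] [Algebra L ff_Qb] (N : ℕ) [NeZero N]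

/-- `O₁ → Q̄ → F̄_N` (NOT an instance). -/
@[reducible] def ffi_dk_algOBar : Algebra ↥(ffi_O A L) ↥(modularFunctionFieldBar N) :=
  ((algebraMap ff_Qb ↥(modularFunctionFieldBar N)).comp (algebraMap ↥(ffi_O A L) ff_Qb)).toAlgebra

attribute [local instance] ffi_dk_algOBar

theorem ffi_dk_towerOBar : IsScalarTower ↥(ffi_O A L) ff_Qb ↥(modularFunctionFieldBar N) :=
  IsScalarTower.of_algebraMap_eq fun _ => rfl

attribute [local instance] ffi_dk_towerOBar

theorem ffi_dk_toBar_algebraMap (c : L) :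
    ffi_toBar L N (algebraMap L ↥(modularFunctionFieldFullC L N) c) =
      algebraMap ff_Qb ↥(modularFunctionFieldBar N) (algebraMap L ff_Qb c) := by
  apply Subtype.ext
  rw [ffi_toBar_coe]
  show coeffMap (algebraMap L ff_Qb) (algebraMap L (LaurentSeries L) c) =
    algebraMap ff_Qb (LaurentSeries ff_Qb) (algebraMap L ff_Qb c)
  rw [algebraMap_laurentSeries_eq_single, coeffMap_single, algebraMap_laurentSeries_eq_single]

/-- `ffi_toBar L N` as an `O₁`-algebra map. -/
def ffi_dk_phi : ↥(modularFunctionFieldFullC L N) →ₐ[↥(ffi_O A L)] ↥(modularFunctionFieldBar N) :=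
  { ffi_toBar L N with
    commutes' := fun o => ffi_dk_toBar_algebraMap L N (o : L) }

theorem ffi_dk_phi_apply (y : ↥(modularFunctionFieldFullC L N)) :
    ffi_dk_phi A L N y = ffi_toBar L N y := rfl

theorem ffi_dk_coeff_algebraMap_mul (c : ff_Qb) (y : ↥(modularFunctionFieldBar N)) (n : ℤ) :
    ((algebraMap ff_Qb ↥(modularFunctionFieldBar N) c * y : ↥(modularFunctionFieldBar N)) :
      LaurentSeries ff_Qb).coeff n = c * (y : LaurentSeries ff_Qb).coeff n := by
  show (algebraMap ff_Qb (LaurentSeries ff_Qb) c * (y : LaurentSeries ff_Qb)).coeff n = _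
  rw [algebraMap_laurentSeries_eq_single, HahnSeries.coeff_single_mul, sub_zero]

/-- **linear disjointness**, coefficientwise. -/
theorem ffi_dk_ld : ffi_dk_LD L ff_Qb (ffi_dk_phi A L N) := by
  intro r e f he h j
  have hcoeff : ∀ n : ℤ, ∑ i, ((f i : LaurentSeries L).coeff n) • e i = 0 := by
    intro n
    have h1 := congrArg (fun y : ↥(modularFunctionFieldBar N) =>
      (y : LaurentSeries ff_Qb).coeff n) h
    simp only [AddSubmonoidClass.coe_finsetSum, HahnSeries.coeff_sum, ZeroMemClass.coe_zero,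
      HahnSeries.coeff_zero] at h1
    rw [← h1]
    refine Finset.sum_congr rfl fun i _ => ?_
    rw [ffi_dk_coeff_algebraMap_mul, ffi_dk_phi_apply, ffi_toBar_coe, coeffMap_coeff,
      Algebra.smul_def, mul_comm]
  apply Subtype.ext
  ext n
  exact Fintype.linearIndependent_iff.1 he (fun i => (f i : LaurentSeries L).coeff n)
    (hcoeff n) j

end Modular

/-! ### `F̄_N` is spanned over `Q̄` by the image of `F_L` -/

section Span

variable (L : Type) [Field L] [Algebra L ff_Qb] (N : ℕ) [NeZero N]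

/-- `F̄_N` is generated as a field by `Q̄` and the image of `F_L`. -/
theorem ffi_dk_gen (f : ↥(modularFunctionFieldBar N)) :
    f ∈ Subfield.closure (Set.range (algebraMap ff_Qb ↥(modularFunctionFieldBar N)) ∪
      Set.range (ffi_toBar L N)) := by
  set S := Subfield.closure (Set.range (algebraMap ff_Qb ↥(modularFunctionFieldBar N)) ∪
      Set.range (ffi_toBar L N)) with hS
  have hle : Subfield.closure (Set.range (algebraMap ff_Qb (LaurentSeries ff_Qb)) ∪
      divisorExpansionsC ff_Qb N) ≤ S.map (modularFunctionFieldBar N).val.toRingHom := by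
    rw [Subfield.closure_le]
    rintro z (⟨c, rfl⟩ | ⟨d, hd, hdN, rfl⟩)
    · exact ⟨algebraMap ff_Qb ↥(modularFunctionFieldBar N) c,
        Subfield.subset_closure (Or.inl ⟨c, rfl⟩), rfl⟩
    · have := hd
      refine ⟨ffi_toBar L N ⟨qExpand L d (jqModC L), jqModCd_mem_full L N hdN⟩,
        Subfield.subset_closure (Or.inr ⟨_, rfl⟩), ?_⟩
      show coeffMap (algebraMap L ff_Qb) (qExpand L d (jqModC L)) = _
      rw [coeffMap_qExpand, coeffMap_jqModC]
  have hf : (f : LaurentSeries ff_Qb) ∈ modularFunctionFieldFullC ff_Qb N := by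
    have h : ∀ y : LaurentSeries ff_Qb, y ∈ modularFunctionFieldBar N →
        y ∈ modularFunctionFieldFullC ff_Qb N := by
      intro y hy
      rw [← lg_F_eq_bar] at hy
      exact hy
    exact h _ f.2
  obtain ⟨f', hf', hff'⟩ := hle hf
  have : f' = f := Subtype.ext hff'
  rwa [this] at hf'

/-- **`F̄_N` is spanned over `Q̄` by the image of `F_L`.** -/
theorem ffi_dk_span_top [Algebra.IsAlgebraic L ff_Qb] (f : ↥(modularFunctionFieldBar N)) :
    f ∈ Submodule.span ff_Qb (Set.range (ffi_toBar L N)) :=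
  ffi_dk_span_eq_top (K := L) (ffi_toBar L N) (ffi_dk_toBar_algebraMap L N) (ffi_dk_gen L N) f

end Span

/-! ### the coefficientwise Galois action -/

section Galois

variable (L : Type) [Field L] [Algebra L ff_Qb] (N : ℕ) [NeZero N]

theorem ffi_dk_coeffMap_mem_bar (ψ : ff_Qb →+* ff_Qb) {y : LaurentSeries ff_Qb}
    (hy : y ∈ modularFunctionFieldBar N) : coeffMap ψ y ∈ modularFunctionFieldBar N := by
  rw [← lg_F_eq_bar] at hy ⊢
  exact ffi_coeffMap_mem_fullC N ψ hy

/-- the coefficientwise action of `σ ∈ Gal(Q̄ / L)` on `F̄_N`. -/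
def ffi_dk_tau (σ : ff_Qb ≃ₐ[L] ff_Qb) :
    ↥(modularFunctionFieldBar N) ≃+* ↥(modularFunctionFieldBar N) where
  toFun y := ⟨coeffMap (σ : ff_Qb →+* ff_Qb) (y : LaurentSeries ff_Qb),
    ffi_dk_coeffMap_mem_bar N _ y.2⟩
  invFun y := ⟨coeffMap (σ.symm : ff_Qb →+* ff_Qb) (y : LaurentSeries ff_Qb),
    ffi_dk_coeffMap_mem_bar N _ y.2⟩
  left_inv y := by
    apply Subtype.ext
    show coeffMap _ (coeffMap _ _) = _
    rw [coeffMap_coeffMap]
    have : ((σ.symm : ff_Qb →+* ff_Qb).comp (σ : ff_Qb →+* ff_Qb)) = RingHom.id ff_Qb :=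
      RingHom.ext fun c => σ.symm_apply_apply c
    rw [this, coeffMap_id]
  right_inv y := by
    apply Subtype.ext
    show coeffMap _ (coeffMap _ _) = _
    rw [coeffMap_coeffMap]
    have : ((σ : ff_Qb →+* ff_Qb).comp (σ.symm : ff_Qb →+* ff_Qb)) = RingHom.id ff_Qb :=
      RingHom.ext fun c => σ.apply_symm_apply c
    rw [this, coeffMap_id]
  map_mul' y z := Subtype.ext (map_mul _ _ _)
  map_add' y z := Subtype.ext (map_add _ _ _)

theorem ffi_dk_tau_coe (σ : ff_Qb ≃ₐ[L] ff_Qb) (y : ↥(modularFunctionFieldBar N)) :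
    ((ffi_dk_tau L N σ y : ↥(modularFunctionFieldBar N)) : LaurentSeries ff_Qb) =
      coeffMap (σ : ff_Qb →+* ff_Qb) (y : LaurentSeries ff_Qb) := rfl

theorem ffi_dk_tau_algebraMap (σ : ff_Qb ≃ₐ[L] ff_Qb) (c : ff_Qb) :
    ffi_dk_tau L N σ (algebraMap ff_Qb ↥(modularFunctionFieldBar N) c) =
      algebraMap ff_Qb ↥(modularFunctionFieldBar N) (σ c) := by
  apply Subtype.ext
  rw [ffi_dk_tau_coe]
  show coeffMap _ (algebraMap ff_Qb (LaurentSeries ff_Qb) c) =
    algebraMap ff_Qb (LaurentSeries ff_Qb) (σ c)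
  rw [algebraMap_laurentSeries_eq_single, coeffMap_single, algebraMap_laurentSeries_eq_single]
  rfl

theorem ffi_dk_tau_toBar (σ : ff_Qb ≃ₐ[L] ff_Qb) (y : ↥(modularFunctionFieldFullC L N)) :
    ffi_dk_tau L N σ (ffi_toBar L N y) = ffi_toBar L N y := by
  apply Subtype.ext
  rw [ffi_dk_tau_coe, ffi_toBar_coe, coeffMap_coeffMap]
  exact coeffMap_congr (RingHom.ext fun c => σ.commutes c) _

end Galois

/-! ### geometric normality in the modular case -/

section GN

variable (L : Type) [Field L] [Algebra ℚ L] [Algebra L ff_Qb] [IsScalarTower ℚ L ff_Qb]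
  (N : ℕ) [NeZero N]

theorem ffi_dk_isAlgebraic : Algebra.IsAlgebraic L ff_Qb := by
  have : Algebra.IsAlgebraic ℚ ff_Qb := AlgebraicClosure.isAlgebraic ℚ
  exact Algebra.IsAlgebraic.tower_top (K := ℚ) L

/-- the conclusion of [P-GN] for `F_L → F̄_N`. -/
theorem ffi_dk_gn (hGN : ffi_SeamGN) (x : ↥(modularFunctionFieldFullC L N))
    (f : ↥(modularFunctionFieldBar N))
    (hf : IsIntegral ↥(Algebra.adjoin ff_Qb
      ({ffi_toBar L N x} : Set ↥(modularFunctionFieldBar N))) f) :
    f ∈ Submodule.span ff_Qb ((ffi_toBar L N : ↥(modularFunctionFieldFullC L N) →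
        ↥(modularFunctionFieldBar N)) ''
      {b | IsIntegral ↥(Algebra.adjoin L ({x} : Set ↥(modularFunctionFieldFullC L N))) b}) := by
  haveI : CharZero L := algebraRat.charZero L
  haveI := ffi_dk_isAlgebraic L
  exact hGN L ff_Qb ↥(modularFunctionFieldFullC L N) ↥(modularFunctionFieldBar N)
    (ffi_toBar L N) (ffi_dk_toBar_algebraMap L N) (ffi_dk_span_top L N)
    (fun σ => ⟨ffi_dk_tau L N σ, ffi_dk_tau_algebraMap L N σ, ffi_dk_tau_toBar L N σ⟩) x f hf

end GN

end Fermat.Agent.FF
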